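/-
P-CFT, WP Local/NormUnits (helper43): existence of normal basis lattices.

Setup: the Mathlib `IsGaloisGroup G A B` framework (`A ⊆ B` domains, `K = Frac A`, `L = Frac B`,
finite `G` acting on `B` and `L` with `B ^ G = A`), `B` finite over `A`.  If every nonzero element
of `A` divides a power of `π` (e.g. `A` a discrete valuation ring with uniformizer `π`), then there
is `θ : B` whose conjugates are `A`-linearly independent and span a lattice containing `π ^ N B`,
i.e. a `NormalBasisData A B G π`.
-/
import Mathlib
import Fermat.Agent.Lib.CFT.Local.NormUnits.Lattice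

set_option autoImplicit false
set_option linter.unusedSectionVars false

namespace Fermat.Agent.Lib.CFT.NormUnits

open scoped nonZeroDivisors

section Exists

variable (G A B K L : Type*) [Group G] [Fintype G] [CommRing A] [IsDomain A] [CommRing B]
  [IsDomain B] [MulSemiringAction G B]
  [Algebra A B] [Field K] [Field L] [Algebra K L] [Algebra A K] [Algebra B L] [Algebra A L]
  [IsFractionRing A K] [IsFractionRing B L] [IsScalarTower A K L] [IsScalarTower A B L]
  [MulSemiringAction G L] [SMulDistribClass G B L] [IsGaloisGroup G A B]

include K L in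
theorem algebraMap_injective_of_galois : Function.Injective (algebraMap A B) := by
  have h : Function.Injective (algebraMap A L) := by
    rw [IsScalarTower.algebraMap_eq A K L]
    exact (algebraMap K L).injective.comp (IsFractionRing.injective A K)
  rw [IsScalarTower.algebraMap_eq A B L] at h
  exact Function.Injective.of_comp h

include A B in
/-- A normal basis generator of `L / K`, indexed by `G`. -/
theorem exists_linearIndependent_smul :
    ∃ x : L, LinearIndependent K (fun g : G => g • x) := by
  have : IsGaloisGroup G K L := IsGaloisGroup.to_isFractionRing G A B K L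
  have : IsGalois K L := IsGaloisGroup.isGalois G K L
  have : FiniteDimensional K L := IsGaloisGroup.finiteDimensional G K L
  obtain ⟨x, hx⟩ := exists_linearIndependent_algEquiv_apply K L
  refine ⟨x, ?_⟩
  have h : (fun g : G => g • x) =
      (fun σ : Gal(L/K) => σ x) ∘ (IsGaloisGroup.mulEquivAlgEquiv G K L) := by
    funext g
    simp
  rw [h]
  exact hx.comp _ (IsGaloisGroup.mulEquivAlgEquiv G K L).injective

include A in
/-- A normal basis generator of `L / K` lying in `B`. -/
theorem exists_linearIndependent_smul_algebraMap :
    ∃ b : B, LinearIndependent K (fun g : G => g • algebraMap B L b) := by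
  obtain ⟨x, hx⟩ := exists_linearIndependent_smul G A B K L
  have : FaithfulSMul A B :=
    (faithfulSMul_iff_algebraMap_injective A B).mpr (algebraMap_injective_of_galois A B K L)
  have : Algebra.IsIntegral A B := (IsGaloisGroup.isInvariant (G := G) (A := A) (B := B)).isIntegral
  obtain ⟨⟨b, s⟩, hbs⟩ := IsLocalization.surj (Algebra.algebraMapSubmonoid B A⁰) x
  obtain ⟨a, ha, has⟩ := s.2
  refine ⟨b, ?_⟩
  have ha0 : algebraMap A K a ≠ 0 := by
    intro h0
    have := (IsFractionRing.injective A K) (h0.trans (map_zero _).symm)
    exact (nonZeroDivisors.ne_zero ha) this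
  have hb : algebraMap B L b = algebraMap A K a • x := by
    rw [← hbs, ← has, ← IsScalarTower.algebraMap_apply A B L, IsScalarTower.algebraMap_apply A K L,
      Algebra.smul_def, mul_comm]
  have hfam : (fun g : G => g • algebraMap B L b) =
      (fun _ : G => Units.mk0 _ ha0) • (fun g : G => g • x) := by
    funext g
    have : IsGaloisGroup G K L := IsGaloisGroup.to_isFractionRing G A B K L
    rw [hb, smul_comm]
    rfl
  rw [hfam]
  exact hx.units_smul _

include K L in
/-- Existence of a normal basis lattice. -/
theorem exists_normalBasisData [Module.Finite A B] {π : A}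
    (hπ : ∀ d : A, d ≠ 0 → ∃ N : ℕ, d ∣ π ^ N) (hπ0 : π ≠ 0) :
    Nonempty (NormalBasisData A B G π) := by
  classical
  have hinj := algebraMap_injective_of_galois A B K L
  have hinjL : Function.Injective (algebraMap B L) := IsFractionRing.injective B L
  obtain ⟨θ, hθ⟩ := exists_linearIndependent_smul_algebraMap G A B K L
  have : IsGaloisGroup G K L := IsGaloisGroup.to_isFractionRing G A B K L
  have : FiniteDimensional K L := IsGaloisGroup.finiteDimensional G K L
  have hcard : Fintype.card G = Module.finrank K L := by
    rw [← Nat.card_eq_fintype_card, IsGaloisGroup.card_eq_finrank G K L]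
  let bs : Module.Basis G K L := basisOfLinearIndependentOfCardEqFinrank hθ hcard
  have hbs : ∀ g, bs g = algebraMap B L (g • θ) := fun g => by
    simp [bs, algebraMap.coe_smul']
  -- generators
  obtain ⟨S, hS⟩ := (Module.Finite.fg_top : (⊤ : Submodule A B).FG)
  obtain ⟨d, hd⟩ := IsLocalization.exist_integer_multiples A⁰ (S ×ˢ (Finset.univ : Finset G))
    (fun p : B × G => bs.repr (algebraMap B L p.1) p.2)
  obtain ⟨N, e, hN⟩ := hπ d (nonZeroDivisors.ne_zero d.2)
  -- linear independence over `A`
  have hindep : LinearIndependent A (fun g : G => g • θ) := by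
    have h1 : LinearIndependent A (fun g : G => g • algebraMap B L θ) := by
      refine hθ.restrict_scalars (R := A) ?_
      intro a a' h
      simp only [Algebra.smul_def, mul_one] at h
      exact IsFractionRing.injective A K h
    refine LinearIndependent.of_comp (IsScalarTower.toAlgHom A B L).toLinearMap ?_
    convert h1 using 1
    funext g
    simp [algebraMap.coe_smul']
  let W : Submodule A B := LinearMap.range (Fintype.linearCombination A (fun g : G => g • θ))
  have hSW : ∀ s ∈ S, (d : A) • s ∈ W := by
    intro s hs
    have hc : ∀ g : G, ∃ c : A, algebraMap A K c = (d : A) • bs.repr (algebraMap B L s) g :=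
      fun g => hd (s, g) (Finset.mem_product.mpr ⟨hs, Finset.mem_univ g⟩)
    choose c hc using hc
    refine ⟨c, ?_⟩
    apply hinjL
    rw [Fintype.linearCombination_apply, map_sum]
    have h1 : algebraMap B L ((d : A) • s) = (d : A) • algebraMap B L s := by
      rw [Algebra.smul_def, map_mul, ← IsScalarTower.algebraMap_apply A B L, Algebra.smul_def]
    rw [h1]
    conv_rhs => rw [← bs.sum_repr (algebraMap B L s), Finset.smul_sum]
    refine Finset.sum_congr rfl fun g _ => ?_
    have e1 : (d : A) • bs.repr (algebraMap B L s) g • algebraMap B L (g • θ) =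
        c g • algebraMap B L (g • θ) := by
      rw [← smul_assoc (d : A) (bs.repr (algebraMap B L s) g) (algebraMap B L (g • θ)), ← hc g,
        algebraMap_smul]
    rw [hbs, e1, Algebra.smul_def, map_mul, ← IsScalarTower.algebraMap_apply A B L,
      ← Algebra.smul_def]
  have hW : ∀ b : B, (d : A) • b ∈ W := by
    intro b
    have hb : b ∈ Submodule.span A (S : Set B) := by rw [hS]; exact Submodule.mem_top
    induction hb using Submodule.span_induction with
    | mem x hx => exact hSW x hx
    | zero => rw [smul_zero]; exact W.zero_mem
    | add x y _ _ hx hy => rw [smul_add]; exact W.add_mem hx hy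
    | smul a x _ hx => rw [smul_comm]; exact W.smul_mem a hx
  refine ⟨⟨θ, N, hindep, ?_, ?_⟩⟩
  · intro b
    have h1 : (π ^ N) • b ∈ W := by
      rw [hN, mul_comm, mul_smul]
      exact W.smul_mem e (hW b)
    obtain ⟨a, ha⟩ := h1
    refine ⟨a, ?_⟩
    rw [← map_pow, ← Algebra.smul_def, ← ha, Fintype.linearCombination_apply]
  · exact fun h => hπ0 (hinj (h.trans (map_zero _).symm))

include K L in
/-- Existence of a normal basis lattice over a discrete valuation ring. -/
theorem exists_normalBasisData_of_irreducible [IsDiscreteValuationRing A] [Module.Finite A B]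
    {π : A} (hπ : Irreducible π) : Nonempty (NormalBasisData A B G π) := by
  refine exists_normalBasisData G A B K L ?_ hπ.ne_zero
  intro d hd
  obtain ⟨n, u, rfl⟩ := IsDiscreteValuationRing.eq_unit_mul_pow_irreducible hd hπ
  refine ⟨n, ((u⁻¹ : Aˣ) : A), ?_⟩
  rw [mul_comm (u : A), mul_assoc, Units.mul_inv, mul_one]

end Exists

end Fermat.Agent.Lib.CFT.NormUnits
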