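/-
P-CFT, WP Local/NormUnits (helper43): the Herbrand quotient of the unit group of a cyclic extension
of complete discrete valuation rings is `1`, and that of `Lˣ` is `[L : K]`.
-/
import Mathlib
import Fermat.Agent.Lib.CFT.Local.NormUnits.NormalBasis
import Fermat.Agent.Lib.CFT.Local.UnitsFiltration
import Fermat.Agent.Lib.CFT.HerbrandMul
import Fermat.Agent.Lib.CFT.HerbrandHilbert90
import Fermat.Agent.Lib.CFT.Local.Basic

set_option autoImplicit false
set_option linter.unusedSectionVars false

namespace Fermat.Agent.Lib.CFT.NormUnits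

open Fermat.Agent.Lib.CFT Fermat.Agent.Lib.CFT.LocalUnits Fermat.Agent.Lib.CFT.Herbrand

section Abstract

variable {G B : Type*} [Group G] [Fintype G] [CommRing B] [IsLocalRing B] [MulSemiringAction G B]
  {π : B} {M : AddSubgroup B} {c : ℕ} (h : LatticeData G π M c)

include h in
/-- The subgroups `1 + π ^ (c + j) M` have finite index in the unit group as soon as
`B / π ^ (2 c + j)` is finite. -/
theorem index_unitsV_ne_zero (j : ℕ) [Finite (B ⧸ Ideal.span {π ^ (2 * c + j)})] :
    (h.unitsV j).index ≠ 0 := by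
  set I : Ideal B := Ideal.span {π ^ (2 * c + j)} with hI
  let φ : Bˣ →* (B ⧸ I)ˣ := Units.map (Ideal.Quotient.mk I : B →* B ⧸ I)
  have hle : φ.ker ≤ h.unitsV j := by
    intro u hu
    rw [MonoidHom.mem_ker] at hu
    have h1 : Ideal.Quotient.mk I (u : B) = 1 := congrArg Units.val hu
    have h2 : (u : B) - 1 ∈ I := by
      rw [← Ideal.Quotient.eq, h1, map_one]
    rw [h.mem_unitsV]
    exact h.mem_latY_of_dvd (Ideal.mem_span_singleton.mp h2)
  have hfi : φ.ker.FiniteIndex := Subgroup.finiteIndex_ker φ
  exact (Subgroup.finiteIndex_of_le hle).index_ne_zero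

include h in
/-- If `G` is cyclic with generator `σ`, the unit group `Bˣ` has Herbrand quotient `1`. -/
theorem herbrandMul_units_of_latticeData {σ : G} (hσ : ∀ g : G, g ∈ Subgroup.zpowers σ)
    (hT : ∀ m ∈ M, (∀ g : G, g • m = m) → ∃ m' ∈ M, ∃ r ∈ M, m - ∑ g : G, g • m' = π * r)
    (hT1 : ∀ m ∈ M, (∃ r ∈ M, ∑ g : G, g • m = π * r) →
      ∃ m' ∈ M, ∃ r' ∈ M, m - (σ • m' - m') = π * r')
    (hidx : (h.unitsV 1).index ≠ 0) :
    IsFinMul (unitsTwist B σ) (LocalUnits.unitsNorm G B) ∧
      herbrandMul (unitsTwist B σ) (LocalUnits.unitsNorm G B) = 1 := by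
  set V : Subgroup Bˣ := h.unitsV 1 with hV
  let f₁ : V →* V := ((unitsTwist B σ).comp V.subtype).codRestrict V
    (fun v => h.unitsTwist_mem_unitsV σ v.2)
  let g₁ : V →* V := ((LocalUnits.unitsNorm G B).comp V.subtype).codRestrict V
    (fun v => h.unitsNorm_mem_unitsV v.2)
  have hf₁ : ∀ v : V, ((f₁ v : V) : Bˣ) = unitsTwist B σ v := fun v => rfl
  have hg₁ : ∀ v : V, ((g₁ v : V) : Bˣ) = LocalUnits.unitsNorm G B v := fun v => rfl
  -- the two indices on `V` are `1`
  have h1 : hIndexMul f₁ g₁ = 1 := by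
    unfold hIndexMul
    rw [Subgroup.relIndex_eq_one]
    intro v hv
    have hv1 : unitsTwist B σ v = 1 := by
      rw [← hf₁, (MonoidHom.mem_ker).mp hv]; rfl
    have hσv : σ • ((v : Bˣ) : B) = ((v : Bˣ) : B) := by
      rw [unitsTwist_apply, div_eq_one] at hv1
      exact congrArg Units.val hv1
    have hfix : ∀ g : G, g • ((v : Bˣ) : B) = ((v : Bˣ) : B) := by
      intro g
      have hle : Subgroup.zpowers σ ≤ MulAction.stabilizer G ((v : Bˣ) : B) :=
        Subgroup.zpowers_le.mpr (MulAction.mem_stabilizer_iff.mpr hσv)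
      exact MulAction.mem_stabilizer_iff.mp (hle (hσ g))
    obtain ⟨w, hw, hNw⟩ := h.exists_unitsNorm_eq hT (le_refl 1) v.2 hfix
    exact ⟨⟨w, hw⟩, Subtype.ext (by rw [hg₁]; exact hNw)⟩
  have h2 : hIndexMul g₁ f₁ = 1 := by
    unfold hIndexMul
    rw [Subgroup.relIndex_eq_one]
    intro v hv
    have hv1 : LocalUnits.unitsNorm G B v = 1 := by
      rw [← hg₁, (MonoidHom.mem_ker).mp hv]; rfl
    obtain ⟨w, hw, hTw⟩ := h.exists_unitsTwist_eq σ hT1 (le_refl 1) v.2 hv1
    exact ⟨⟨w, hw⟩, Subtype.ext (by rw [hf₁]; exact hTw)⟩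
  have hfin₁ : IsFinMul f₁ g₁ := ⟨by rw [h1]; exact one_ne_zero, by rw [h2]; exact one_ne_zero⟩
  have hq₁ : herbrandMul f₁ g₁ = 1 := by
    unfold herbrandMul
    rw [h1, h2]; simp
  have hker : Finite (V.subtype).ker := by
    rw [(MonoidHom.ker_eq_bot_iff _).mpr V.subtype_injective]
    infer_instance
  have key := herbrandMul_eq_of_finite_ker_coker (f₁ := f₁) (g₁ := g₁)
    (f₂ := unitsTwist B σ) (g₂ := LocalUnits.unitsNorm G B) V.subtype
    (fun x => Subtype.ext (by rw [hf₁, hg₁, unitsTwist_unitsNorm]; rfl))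
    (fun x => Subtype.ext (by rw [hg₁, hf₁, unitsNorm_unitsTwist]; rfl))
    (unitsTwist_unitsNorm B σ) (unitsNorm_unitsTwist B σ)
    (fun a => rfl) (fun a => rfl) (by rw [Subgroup.range_subtype]; exact hidx)
  exact ⟨key.1.mp hfin₁, by rw [← key.2, hq₁]⟩

end Abstract

section DVR

open IsLocalRing

/-- A nonzero ideal of a discrete valuation ring with finite residue field has finite index. -/
theorem finite_quotient_of_ne_bot {B : Type*} [CommRing B] [IsDomain B]
    [IsDiscreteValuationRing B] [Finite (ResidueField B)] {I : Ideal B} (hI : I ≠ ⊥) :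
    Finite (B ⧸ I) := by
  obtain ⟨ϖ, hϖ⟩ := IsDiscreteValuationRing.exists_irreducible B
  obtain ⟨n, hn⟩ := IsDiscreteValuationRing.ideal_eq_span_pow_irreducible hI hϖ
  have h1 : I = maximalIdeal B ^ n := by
    rw [hn, hϖ.maximalIdeal_eq, Ideal.span_singleton_pow]
  have : Finite (B ⧸ maximalIdeal B) := ‹Finite (ResidueField B)›
  rw [h1]
  exact Ideal.finite_quotient_pow (IsNoetherian.noetherian _) n

variable (G A B K L : Type*) [Group G] [Fintype G] [CommRing A] [IsDomain A]
  [IsDiscreteValuationRing A] [CommRing B] [IsDomain B] [IsDiscreteValuationRing B]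
  [MulSemiringAction G B]
  [Algebra A B] [Field K] [Field L] [Algebra K L] [Algebra A K] [Algebra B L] [Algebra A L]
  [IsFractionRing A K] [IsFractionRing B L] [IsScalarTower A K L] [IsScalarTower A B L]
  [MulSemiringAction G L] [SMulDistribClass G B L] [IsGaloisGroup G A B] [Module.Finite A B]
  [IsAdicComplete (maximalIdeal A) A] [Finite (ResidueField B)]

include A K L in
/-- **Units of a cyclic extension of complete discrete valuation rings have Herbrand quotient
`1`.**  Here `σ` generates `G`. -/
theorem herbrandMul_units_eq_one {σ : G} (hσ : ∀ g : G, g ∈ Subgroup.zpowers σ) :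
    IsFinMul (unitsTwist B σ) (LocalUnits.unitsNorm G B) ∧
      herbrandMul (unitsTwist B σ) (LocalUnits.unitsNorm G B) = 1 := by
  classical
  obtain ⟨π, hπ⟩ := IsDiscreteValuationRing.exists_irreducible A
  obtain ⟨D⟩ := exists_normalBasisData_of_irreducible G A B K L hπ
  have hinj := algebraMap_injective_of_galois A B K L
  have : FaithfulSMul A B := (faithfulSMul_iff_algebraMap_injective A B).mpr hinj
  have : Algebra.IsIntegral A B := Algebra.IsIntegral.of_finite A B
  have hπB : algebraMap A B π ∈ maximalIdeal B := by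
    rw [mem_maximalIdeal, mem_nonunits_iff]
    exact fun hu => hπ.not_isUnit (isUnit_of_map_unit (algebraMap A B) π hu)
  have hA : IsAdicComplete (Ideal.span {π}) A := by
    rw [← hπ.maximalIdeal_eq]; infer_instance
  have hL := D.latticeData hπB
  have hfin : Finite (B ⧸ Ideal.span {D.ϖ ^ (2 * D.N + 1)}) := by
    apply finite_quotient_of_ne_bot
    rw [Ne, Ideal.span_singleton_eq_bot]
    exact D.ϖ_pow_ne _
  exact herbrandMul_units_of_latticeData hL hσ D.hT (D.hT1 hσ) (index_unitsV_ne_zero hL 1)

end DVR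

section Field

open IsLocalRing Fermat.Agent.Lib.CFT.Local.UnitsFiltration

theorem powQuotMul_int {n : ℕ} (hn : n ≠ 0) :
    powQuotMul (Multiplicative ℤ) n = n ∧ PowFinMul (Multiplicative ℤ) n := by
  rw [powQuotMul_eq_powQuot, powFinMul_iff_powFin]
  exact powQuot_int hn

variable (G A B K L : Type*) [Group G] [Fintype G] [CommRing A] [IsDomain A]
  [IsDiscreteValuationRing A] [CommRing B] [IsDomain B] [IsDiscreteValuationRing B]
  [MulSemiringAction G B]
  [Algebra A B] [Field K] [Field L] [Algebra K L] [Algebra A K] [Algebra B L] [Algebra A L]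
  [IsFractionRing A K] [IsFractionRing B L] [IsScalarTower A K L] [IsScalarTower A B L]
  [MulSemiringAction G L] [SMulDistribClass G B L] [IsGaloisGroup G A B] [Module.Finite A B]
  [IsAdicComplete (maximalIdeal A) A] [Finite (ResidueField B)]

omit [Fintype G] in
theorem unitsIncl_unitsSmul (g : G) (u : Bˣ) :
    unitsIncl B L (unitsSmul B g u) = unitsSmul L g (unitsIncl B L u) := by
  apply Units.ext
  show algebraMap B L (g • (u : B)) = g • algebraMap B L (u : B)
  exact algebraMap.coe_smul' g (u : B) L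

omit [Fintype G] in
theorem ordHom_unitsSmul (g : G) (x : Lˣ) : ordHom B L (unitsSmul L g x) = ordHom B L x := by
  rw [ordHom_apply, ordHom_apply]
  congr 1
  exact ord_map (MulSemiringAction.toRingEquiv G B g) (MulSemiringAction.toRingEquiv G L g)
    (fun b => (algebraMap.coe_smul' g b L).symm) x

include A B K in
/-- **The Herbrand quotient of `Lˣ` for a cyclic extension `L / K` of complete discretely valued
fields with finite residue field is `[L : K] = |G|`.**  Here `σ` generates `G`. -/
theorem herbrandMul_field_units {σ : G} (hσ : ∀ g : G, g ∈ Subgroup.zpowers σ) :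
    IsFinMul (unitsTwist L σ) (LocalUnits.unitsNorm G L) ∧
      herbrandMul (unitsTwist L σ) (LocalUnits.unitsNorm G L) = Fintype.card G := by
  obtain ⟨hfinB, hqB⟩ := herbrandMul_units_eq_one G A B K L hσ
  have hcard : Fintype.card G ≠ 0 := Fintype.card_ne_zero
  obtain ⟨hqZ, hfinZ⟩ := powQuotMul_int hcard
  have key := herbrandMul_of_exact (f₁ := unitsTwist B σ) (g₁ := LocalUnits.unitsNorm G B)
    (f₂ := unitsTwist L σ) (g₂ := LocalUnits.unitsNorm G L)
    (f₃ := (1 : Multiplicative ℤ →* Multiplicative ℤ)) (g₃ := powMonoidHom (Fintype.card G))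
    (i := unitsIncl B L) (p := ordHom B L)
    unitsIncl_injective ordHom_surjective ker_ordHom.symm
    (unitsTwist_unitsNorm L σ) (unitsNorm_unitsTwist L σ) ?_ ?_ ?_ ?_
  · obtain ⟨k1, -, -, k4⟩ := key
    refine ⟨k1 ⟨hfinB, hfinZ⟩, ?_⟩
    rw [k4 hfinB hfinZ, hqB, one_mul]
    exact hqZ
  · intro a
    rw [unitsTwist_apply, unitsTwist_apply, map_div, unitsIncl_unitsSmul]
  · intro a
    unfold LocalUnits.unitsNorm
    rw [MonoidHom.finsetProd_apply, MonoidHom.finsetProd_apply, map_prod]
    exact Finset.prod_congr rfl fun g _ => unitsIncl_unitsSmul G B L g a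
  · intro b
    rw [unitsTwist_apply, map_div, ordHom_unitsSmul, div_self', MonoidHom.one_apply]
  · intro b
    unfold LocalUnits.unitsNorm
    rw [MonoidHom.finsetProd_apply, map_prod]
    simp only [ordHom_unitsSmul]
    rw [Finset.prod_const, Finset.card_univ, powMonoidHom_apply]

end Field

section NormIndex

open IsLocalRing

variable (A K L B : Type) [CommRing A] [IsDomain A] [IsDiscreteValuationRing A]
  [IsAdicComplete (maximalIdeal A) A]
  [Field K] [Algebra A K] [IsFractionRing A K]
  [Field L] [Algebra K L] [FiniteDimensional K L] [IsGalois K L]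
  [Algebra A L] [IsScalarTower A K L]
  [CommRing B] [IsDomain B] [Algebra A B] [Algebra B L] [IsScalarTower A B L]
  [IsIntegralClosure B A L] [Finite (ResidueField A)]

include A B in
/-- **Local norm index for cyclic extensions** (the "second inequality" and the "first
inequality" at once): if `K` is the fraction field of a complete discrete valuation ring `A` with
finite residue field and `L / K` is a finite cyclic extension, then
`[Kˣ : N_{L/K} Lˣ] = [L : K]`. -/
theorem norm_index_of_isCyclic [IsCyclic Gal(L/K)] :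
    (Herbrand.unitsNorm K L).range.index = Module.finrank K L := by
  classical
  have hfinAB := Local.ext_finite A K L B
  have hlocB := Local.ext_isLocalRing A K L B
  have hdvrB := Local.ext_isDiscreteValuationRing A K L B
  have hfrB := Local.ext_isFractionRing A K L B
  have hintAB := Local.ext_isIntegral A K L B
  let : MulSemiringAction Gal(L/K) B := IsIntegralClosure.MulSemiringAction A K L B
  have hgal : IsGaloisGroup Gal(L/K) A B := IsGaloisGroup.of_isFractionRing Gal(L/K) A B K L
  have hinj := Local.ext_algebraMap_injective A K L B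
  have : FaithfulSMul A B := (faithfulSMul_iff_algebraMap_injective A B).mpr hinj
  have hresB : Finite (ResidueField B) :=
    IsLocalRing.ResidueField.finite_of_finite (R := A) (S := B) ‹_›
  obtain ⟨g, hg⟩ := IsCyclic.exists_generator (α := Gal(L/K))
  obtain ⟨-, hq⟩ := herbrandMul_field_units Gal(L/K) A B K L hg
  have e1 : unitsTwist L g = subOneMul Gal(L/K) Lˣ g := by
    ext u
    rfl
  have e2 : LocalUnits.unitsNorm Gal(L/K) L = normMul Gal(L/K) Lˣ := by
    ext u
    rw [coe_unitsNorm, normMul_apply, Units.coe_prod]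
    rfl
  have h3 := herbrandCycMul_units (K := K) (L := L) hg
  unfold herbrandCycMul at h3
  rw [← e1, ← e2, hq] at h3
  have h4 : Fintype.card Gal(L/K) = (Herbrand.unitsNorm K L).range.index := by exact_mod_cast h3
  rw [← h4, ← Nat.card_eq_fintype_card, IsGalois.card_aut_eq_finrank]

end NormIndex

end Fermat.Agent.Lib.CFT.NormUnits
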