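/-
P-CFT, WP Local/NormUnits (helper43): for a cyclic extension `L / K` of local fields,
`|H²(Gal(L/K), Lˣ)| = [L : K]` (Mathlib group cohomology of `Rep.ofAlgebraAutOnUnits K L`).
-/
import Mathlib
import Fermat.Agent.Lib.CFT.Local.NormUnits.UnitsHerbrand
import Fermat.Agent.Lib.CFT.HerbrandRep

set_option autoImplicit false
set_option linter.unusedSectionVars false

namespace Fermat.Agent.Lib.CFT.NormUnits

open Fermat.Agent.Lib.CFT Fermat.Agent.Lib.CFT.Herbrand IsLocalRing

section General

section Abstract

variable (G M : Type) [CommGroup G] [Fintype G] [CommGroup M] [MulDistribMulAction G M]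

theorem repSub_ofMulDistribMulAction (g : G) :
    repSub (Rep.ofMulDistribMulAction G M) g = MonoidHom.toAdditive (subOneMul G M g) := by
  ext u
  rfl

theorem repNorm_ofMulDistribMulAction :
    repNorm (Rep.ofMulDistribMulAction G M) = MonoidHom.toAdditive (normMul G M) := by
  refine AddMonoidHom.ext fun (u : Additive M) => ?_
  change (∑ x : G, Additive.ofMul (x • Additive.toMul u) : Additive M) =
    Additive.ofMul (normMul G M (Additive.toMul u))
  rw [normMul_apply, ofMul_prod]

theorem hIndex_repSub_repNorm (g : G) :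
    hIndex (repSub (Rep.ofMulDistribMulAction G M) g) (repNorm (Rep.ofMulDistribMulAction G M)) =
      hIndexMul (subOneMul G M g) (normMul G M) :=
  (congrArg₂ hIndex (repSub_ofMulDistribMulAction G M g) (repNorm_ofMulDistribMulAction G M)).trans
    (hIndex_toAdditive _ _)

theorem hIndex_repNorm_repSub (g : G) :
    hIndex (repNorm (Rep.ofMulDistribMulAction G M)) (repSub (Rep.ofMulDistribMulAction G M) g) =
      hIndexMul (normMul G M) (subOneMul G M g) :=
  (congrArg₂ hIndex (repNorm_ofMulDistribMulAction G M) (repSub_ofMulDistribMulAction G M g)).trans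
    (hIndex_toAdditive _ _)

end Abstract

variable {K L : Type} [Field K] [Field L] [Algebra K L] [FiniteDimensional K L] [IsGalois K L]

/-- For a cyclic extension, `|H^{2i}(Gal(L/K), Lˣ)| = [Kˣ : N Lˣ]` (`i > 0`). -/
theorem card_groupCohomology_even_units [IsCyclic Gal(L/K)] (i : ℕ) [NeZero i] (hi : Even i) :
    Nat.card (groupCohomology (Rep.ofAlgebraAutOnUnits K L) i) =
      (Herbrand.unitsNorm K L).range.index := by
  classical
  let _ : CommGroup Gal(L/K) := IsCyclic.commGroup
  obtain ⟨g, hg⟩ := IsCyclic.exists_generator (α := Gal(L/K))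
  have h1 := card_groupCohomology_even (Rep.ofAlgebraAutOnUnits K L) g hg i hi
  have h2 := hIndex_repSub_repNorm Gal(L/K) Lˣ g
  rw [← hIndexMul_subOneMul_normMul_units hg]
  exact h1.trans h2

/-- For a cyclic extension, `H^{2i+1}(Gal(L/K), Lˣ)` is trivial. -/
theorem card_groupCohomology_odd_units [IsCyclic Gal(L/K)] (i : ℕ) (hi : Odd i) :
    Nat.card (groupCohomology (Rep.ofAlgebraAutOnUnits K L) i) = 1 := by
  classical
  let _ : CommGroup Gal(L/K) := IsCyclic.commGroup
  obtain ⟨g, hg⟩ := IsCyclic.exists_generator (α := Gal(L/K))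
  have h1 := card_groupCohomology_odd (Rep.ofAlgebraAutOnUnits K L) g hg i hi
  have h2 := hIndex_repNorm_repSub Gal(L/K) Lˣ g
  rw [← hIndexMul_normMul_subOneMul_units hg]
  exact h1.trans h2

end General

section Local

variable (A K L B : Type) [CommRing A] [IsDomain A] [IsDiscreteValuationRing A]
  [IsAdicComplete (maximalIdeal A) A]
  [Field K] [Algebra A K] [IsFractionRing A K]
  [Field L] [Algebra K L] [FiniteDimensional K L] [IsGalois K L]
  [Algebra A L] [IsScalarTower A K L]
  [CommRing B] [IsDomain B] [Algebra A B] [Algebra B L] [IsScalarTower A B L]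
  [IsIntegralClosure B A L] [Finite (ResidueField A)]

include A B in
/-- **`|H²(Gal(L/K), Lˣ)| = [L : K]` for a cyclic extension of local fields.** -/
theorem card_H2_units_of_isCyclic [IsCyclic Gal(L/K)] :
    Nat.card (groupCohomology (Rep.ofAlgebraAutOnUnits K L) 2) = Module.finrank K L := by
  rw [card_groupCohomology_even_units 2 (by decide), norm_index_of_isCyclic A K L B]

end Local

end Fermat.Agent.Lib.CFT.NormUnits
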