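/-
P-CFT, WP Local/NormUnits (helper43): `|H²(Gal(L/K), Lˣ)|` divides `[L : K]` for solvable Galois
extensions of local fields (induction along a normal subgroup of prime index, inflation-restriction
and the cyclic case).
-/
import Mathlib
import Fermat.Agent.Lib.CFT.Local.NormUnits.CyclicH2
import Fermat.Agent.Lib.CFT.Coh.InfRes
import Fermat.Agent.Lib.CFT.Coh.Solvable

set_option autoImplicit false
set_option linter.unusedSectionVars false

namespace Fermat.Agent.Lib.CFT.NormUnits

open Fermat.Agent.Lib.CFT IsLocalRing CategoryTheory

/-- `K` is the fraction field of a complete discrete valuation ring with finite residue field. -/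
def IsLocalFld (K : Type) [Field K] : Prop :=
  ∃ (A : Type) (_ : CommRing A) (_ : IsDomain A) (_ : IsDiscreteValuationRing A)
    (_ : IsAdicComplete (maximalIdeal A) A) (_ : Finite (ResidueField A)) (_ : Algebra A K),
    IsFractionRing A K

theorem isLocalFld_of_isFractionRing (A K : Type) [CommRing A] [IsDomain A]
    [IsDiscreteValuationRing A] [IsAdicComplete (maximalIdeal A) A] [Finite (ResidueField A)]
    [Field K] [Algebra A K] [IsFractionRing A K] : IsLocalFld K :=
  ⟨A, inferInstance, inferInstance, inferInstance, inferInstance, inferInstance, inferInstance,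
    inferInstance⟩

/-- A finite separable extension of a local field is a local field. -/
theorem IsLocalFld.of_finite {K E : Type} [Field K] [Field E] [Algebra K E]
    [FiniteDimensional K E] [Algebra.IsSeparable K E] (h : IsLocalFld K) : IsLocalFld E := by
  obtain ⟨A, _, _, _, _, _, _, _⟩ := h
  let : Algebra A E := ((algebraMap K E).comp (algebraMap A K)).toAlgebra
  have : IsScalarTower A K E := IsScalarTower.of_algebraMap_eq (fun _ => rfl)
  have hloc := Local.ext_isLocalRing A K E (integralClosure A E)
  have hdvr := Local.ext_isDiscreteValuationRing A K E (integralClosure A E)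
  have hfr := Local.ext_isFractionRing A K E (integralClosure A E)
  have hcomp := Local.ext_isAdicComplete A K E (integralClosure A E)
  have hfin := Local.ext_finite A K E (integralClosure A E)
  have hlh := Local.ext_isLocalHom A K E (integralClosure A E)
  have hres : Finite (ResidueField (integralClosure A E)) :=
    IsLocalRing.ResidueField.finite_of_finite (R := A) (S := integralClosure A E) ‹_›
  exact ⟨integralClosure A E, inferInstance, inferInstance, hdvr, hcomp, hres, inferInstance, hfr⟩

section Cyclic

variable {K L : Type} [Field K] [Field L] [Algebra K L] [FiniteDimensional K L] [IsGalois K L]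

/-- `[Kˣ : N Lˣ] = [L : K]` for cyclic extensions of local fields. -/
theorem IsLocalFld.norm_index_of_isCyclic (hK : IsLocalFld K) [IsCyclic Gal(L/K)] :
    (Herbrand.unitsNorm K L).range.index = Module.finrank K L := by
  obtain ⟨A, _, _, _, _, _, _, _⟩ := hK
  let : Algebra A L := ((algebraMap K L).comp (algebraMap A K)).toAlgebra
  have : IsScalarTower A K L := IsScalarTower.of_algebraMap_eq (fun _ => rfl)
  exact NormUnits.norm_index_of_isCyclic A K L (integralClosure A L)

/-- `|H²(Gal(L/K), Lˣ)| = [L : K]` for cyclic extensions of local fields. -/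
theorem IsLocalFld.card_H2_units_of_isCyclic (hK : IsLocalFld K) [IsCyclic Gal(L/K)] :
    Nat.card (groupCohomology (Rep.ofAlgebraAutOnUnits K L) 2) = Module.finrank K L := by
  rw [card_groupCohomology_even_units 2 (by decide), hK.norm_index_of_isCyclic]

end Cyclic

section Transport

variable {K L : Type} [Field K] [Field L] [Algebra K L] [FiniteDimensional K L] [IsGalois K L]

/-- `Hⁿ(H, Lˣ) ≅ Hⁿ(Gal(L/L^H), Lˣ)` for a subgroup `H` of `Gal(L/K)`. -/
noncomputable def resIso (H : Subgroup Gal(L/K)) (n : ℕ) :
    groupCohomology (Rep.res H.subtype (Rep.ofAlgebraAutOnUnits K L)) n ≅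
      groupCohomology (Rep.ofAlgebraAutOnUnits (IntermediateField.fixedField H) L) n :=
  groupCohomology.mapIso (A := Rep.ofAlgebraAutOnUnits (IntermediateField.fixedField H) L)
    (B := Rep.res H.subtype (Rep.ofAlgebraAutOnUnits K L))
    (IntermediateField.subgroupEquivAlgEquiv H) (LinearEquiv.refl ℤ (Additive Lˣ))
    (fun g => by
      ext u
      rfl) n

section Invariants

open IntermediateField

variable (N : Subgroup Gal(L/K)) [N.Normal]

/-- the inclusion `(L^N)ˣ → Lˣ`. -/
noncomputable def unitsIota : (fixedField N)ˣ →* Lˣ := Units.map ((fixedField N).val : _ →* L)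

theorem coe_unitsIota (x : (fixedField N)ˣ) :
    ((unitsIota N x : Lˣ) : L) = ((x : fixedField N) : L) :=
  rfl

theorem unitsIota_injective : Function.Injective (unitsIota N) :=
  Units.map_injective (fun _ _ h => Subtype.ext h)

theorem smul_unitsIota (σ : Gal(L/K)) (x : Additive (fixedField N)ˣ) :
    (Additive.ofMul (σ • unitsIota N x.toMul) : Additive Lˣ) =
      MonoidHom.toAdditive (unitsIota N) ((Rep.ofAlgebraAutOnUnits K (fixedField N)).ρ
        (AlgEquiv.restrictNormalHom (fixedField N) σ) x) := by
  refine congrArg Additive.ofMul (Units.ext ?_)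
  show σ ((x.toMul : fixedField N) : L) = _
  exact (AlgEquiv.restrictNormalHom_apply (fixedField N) σ (x.toMul : fixedField N)).symm

theorem unitsIota_mem_invariants (x : Additive (fixedField N)ˣ) :
    MonoidHom.toAdditive (unitsIota N) x ∈
      Representation.invariants ((Rep.ofAlgebraAutOnUnits K L).ρ.comp N.subtype) := by
  intro n
  show (Additive.ofMul ((n : Gal(L/K)) • unitsIota N x.toMul) : Additive Lˣ) =
    Additive.ofMul (unitsIota N x.toMul)
  refine congrArg Additive.ofMul (Units.ext ?_)
  show (n : Gal(L/K)) ((x.toMul : fixedField N) : L) = _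
  exact (x.toMul : fixedField N).2 n

/-- `(L^N)ˣ → (Lˣ)^N` as a linear map. -/
noncomputable def unitsToInvariants : Additive (fixedField N)ˣ →ₗ[ℤ]
    ↥(Representation.invariants ((Rep.ofAlgebraAutOnUnits K L).ρ.comp N.subtype)) :=
  LinearMap.codRestrict _ (MonoidHom.toAdditive (unitsIota N)).toIntLinearMap
    (unitsIota_mem_invariants N)

theorem coe_unitsToInvariants (x : Additive (fixedField N)ˣ) :
    (unitsToInvariants N x).val = Additive.ofMul (unitsIota N x.toMul) := rfl

theorem unitsToInvariants_bijective : Function.Bijective (unitsToInvariants N) := by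
  constructor
  · intro x y h
    have h1 := congrArg Subtype.val h
    rw [coe_unitsToInvariants, coe_unitsToInvariants] at h1
    exact unitsIota_injective N h1
  · rintro ⟨(u : Additive Lˣ), hu⟩
    have hfix : ∀ n : N, (n : Gal(L/K)) ((u.toMul : Lˣ) : L) = ((u.toMul : Lˣ) : L) := by
      intro n
      have h1 : (Additive.ofMul ((n : Gal(L/K)) • u.toMul) : Additive Lˣ) = u := hu n
      have h2 : (n : Gal(L/K)) • u.toMul = u.toMul := h1
      exact congrArg Units.val h2
    have hmem : ((u.toMul : Lˣ) : L) ∈ fixedField N := fun n => hfix n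
    have hne : (⟨((u.toMul : Lˣ) : L), hmem⟩ : fixedField N) ≠ 0 := by
      intro h0
      exact (u.toMul : Lˣ).ne_zero (congrArg Subtype.val h0)
    refine ⟨Additive.ofMul (Units.mk0 _ hne), Subtype.ext ?_⟩
    rw [coe_unitsToInvariants]
    have : unitsIota N (Units.mk0 _ hne) = u.toMul := Units.ext rfl
    show Additive.ofMul (unitsIota N (Units.mk0 _ hne)) = u
    rw [this]
    rfl

/-- `(Lˣ)^N ≃ (L^N)ˣ`. -/
noncomputable def invariantsEquiv :
    ↥(Representation.invariants ((Rep.ofAlgebraAutOnUnits K L).ρ.comp N.subtype)) ≃ₗ[ℤ]
      Additive (fixedField N)ˣ :=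
  (LinearEquiv.ofBijective (unitsToInvariants N) (unitsToInvariants_bijective N)).symm

theorem invariantsEquiv_unitsToInvariants (x : Additive (fixedField N)ˣ) :
    invariantsEquiv N (unitsToInvariants N x) = x :=
  (LinearEquiv.ofBijective (unitsToInvariants N) (unitsToInvariants_bijective N)).symm_apply_apply x

theorem quotientToInvariants_unitsToInvariants (σ : Gal(L/K)) (y : Additive (fixedField N)ˣ) :
    ((Rep.ofAlgebraAutOnUnits K L).quotientToInvariants N).ρ (σ : Gal(L/K) ⧸ N)
        (unitsToInvariants N y) =
      unitsToInvariants N ((Rep.ofAlgebraAutOnUnits K (fixedField N)).ρ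
        (AlgEquiv.restrictNormalHom (fixedField N) σ) y) := by
  apply Subtype.ext
  exact smul_unitsIota N σ y

/-- `Hⁿ(G/N, (Lˣ)^N) ≅ Hⁿ(Gal(L^N/K), (L^N)ˣ)` for a normal subgroup `N` of `G = Gal(L/K)`. -/
noncomputable def invIso (n : ℕ) :
    groupCohomology ((Rep.ofAlgebraAutOnUnits K L).quotientToInvariants N) n ≅
      groupCohomology (Rep.ofAlgebraAutOnUnits K (fixedField N)) n :=
  groupCohomology.mapIso (A := Rep.ofAlgebraAutOnUnits K (fixedField N))
    (B := (Rep.ofAlgebraAutOnUnits K L).quotientToInvariants N)
    (IsGalois.normalAutEquivQuotient N) (invariantsEquiv N)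
    (fun g => by
      induction g using QuotientGroup.induction_on with
      | H σ =>
        apply LinearMap.ext
        intro x
        obtain ⟨y, rfl⟩ := (unitsToInvariants_bijective N).2 x
        rw [LinearMap.comp_apply, LinearMap.comp_apply, quotientToInvariants_unitsToInvariants]
        erw [invariantsEquiv_unitsToInvariants, invariantsEquiv_unitsToInvariants]
        rfl) n

end Invariants

end Transport

section Main

open IntermediateField

theorem card_H2_units_dvd_aux : ∀ (n : ℕ) (K L : Type) [Field K] [Field L] [Algebra K L]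
    [FiniteDimensional K L] [IsGalois K L], IsLocalFld K → Group.IsSolvable Gal(L/K) →
    Module.finrank K L = n →
    Finite (groupCohomology (Rep.ofAlgebraAutOnUnits K L) 2) ∧
      Nat.card (groupCohomology (Rep.ofAlgebraAutOnUnits K L) 2) ∣ n := by
  intro n
  induction n using Nat.strong_induction_on with
  | _ n ih =>
  intro K L _ _ _ _ _ hK hsolv hn
  by_cases hG : Nontrivial Gal(L/K)
  · obtain ⟨N, hN, hp⟩ := Coh.Solvable.exists_normal_prime_index Gal(L/K)
    have hpF : Fact (Nat.card (Gal(L/K) ⧸ N)).Prime := ⟨hp⟩
    -- degrees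
    have hEK : Module.finrank K (fixedField N) = Nat.card (Gal(L/K) ⧸ N) := by
      rw [← IsGalois.card_aut_eq_finrank K (fixedField N)]
      exact (Nat.card_congr (IsGalois.normalAutEquivQuotient N).toEquiv).symm
    have hLE : Module.finrank (fixedField N) L = Nat.card N := finrank_fixedField_eq_card N
    have hmul : Module.finrank K (fixedField N) * Module.finrank (fixedField N) L = n := by
      rw [Module.finrank_mul_finrank, hn]
    have hlt : Module.finrank (fixedField N) L < n := by
      have h2 : 2 ≤ Module.finrank K (fixedField N) := hEK ▸ hp.two_le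
      have hpos : 0 < Module.finrank (fixedField N) L := Module.finrank_pos
      nlinarith
    -- the bottom layer is cyclic of prime degree
    have hcyc : IsCyclic Gal(fixedField N/K) := by
      have : Nat.card Gal(fixedField N/K) = Nat.card (Gal(L/K) ⧸ N) :=
        (Nat.card_congr (IsGalois.normalAutEquivQuotient N).toEquiv).symm
      exact isCyclic_of_prime_card this
    have hX := hK.card_H2_units_of_isCyclic (K := K) (L := fixedField N)
    -- the top layer, by induction
    have hKE : IsLocalFld (fixedField N) := hK.of_finite
    have hsolvE : Group.IsSolvable Gal(L/fixedField N) :=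
      Group.isSolvable_of_surjective (f := (subgroupEquivAlgEquiv N).toMonoidHom)
        (subgroupEquivAlgEquiv N).surjective
    obtain ⟨hZfin, hZdvd⟩ := ih _ hlt (fixedField N) L hKE hsolvE rfl
    -- transport to the inflation-restriction sequence
    set A := Rep.ofAlgebraAutOnUnits K L with hA
    have eX := (invIso N 2).toLinearEquiv.toEquiv
    have eZ := (resIso N 2).toLinearEquiv.toEquiv
    have hXfin : Finite (groupCohomology (A.quotientToInvariants N) 2) := by
      have : Finite (groupCohomology (Rep.ofAlgebraAutOnUnits K (fixedField N)) 2) :=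
        Nat.finite_of_card_ne_zero (by rw [hX]; exact Module.finrank_pos.ne')
      exact Finite.of_equiv _ eX.symm
    have hZfin' : Finite (groupCohomology (Rep.res N.subtype A) 2) := Finite.of_equiv _ eZ.symm
    have h1 : Limits.IsZero (groupCohomology (Rep.res N.subtype A) 1) := by
      refine Limits.IsZero.of_iso ?_ (resIso N 1)
      have : Subsingleton (groupCohomology (Rep.ofAlgebraAutOnUnits (fixedField N) L) 1) :=
        (groupCohomology.H1ofAutOnUnitsUnique (fixedField N) L).instSubsingleton
      exact ModuleCat.isZero_of_subsingleton _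
    obtain ⟨hinj, hex⟩ := Coh.InfRes.infResExact_two A N h1
    have key := Coh.Solvable.finite_and_card_dvd_of_exact
      (f := (Coh.InfRes.infl A N 2).hom.toAddMonoidHom)
      (g := (Coh.InfRes.rest A N 2).hom.toAddMonoidHom) hinj
      (fun x => by
        have h := Coh.InfRes.infl_comp_rest A N 1
        have h' := congrArg (fun φ => φ.hom x) h
        simpa using h')
      hex
    refine ⟨key.1, key.2.trans ?_⟩
    rw [Nat.card_congr eX, Nat.card_congr eZ, hX, ← hmul]
    exact Nat.mul_dvd_mul_left _ hZdvd
  · have hsub : Subsingleton Gal(L/K) := not_nontrivial_iff_subsingleton.mp hG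
    have hcyc : IsCyclic Gal(L/K) := inferInstance
    have hc := hK.card_H2_units_of_isCyclic (K := K) (L := L)
    rw [hn] at hc
    have hpos : 0 < n := hn ▸ Module.finrank_pos
    exact ⟨Nat.finite_of_card_ne_zero (by omega), by rw [hc]⟩

variable {K L : Type} [Field K] [Field L] [Algebra K L] [FiniteDimensional K L] [IsGalois K L]

/-- **`|H²(Gal(L/K), Lˣ)|` divides `[L : K]` for a solvable Galois extension of local fields.** -/
theorem IsLocalFld.card_H2_units_dvd_of_isSolvable (hK : IsLocalFld K) [hs : Group.IsSolvable Gal(L/K)] :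
    Finite (groupCohomology (Rep.ofAlgebraAutOnUnits K L) 2) ∧
      Nat.card (groupCohomology (Rep.ofAlgebraAutOnUnits K L) 2) ∣ Module.finrank K L :=
  card_H2_units_dvd_aux _ K L hK hs rfl

end Main

end Fermat.Agent.Lib.CFT.NormUnits
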