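/-
P-CFT, WP Local/NormUnits (helper43): `|H²(Gal(L/K), Lˣ)|` divides `[L : K]` for every finite Galois
extension of local fields (Sylow reduction to `p`-groups, which are solvable).
-/
import Mathlib
import Fermat.Agent.Lib.CFT.Local.NormUnits.SolvableH2
import Fermat.Agent.Lib.CFT.Coh.SylowCard

set_option autoImplicit false
set_option linter.unusedSectionVars false

namespace Fermat.Agent.Lib.CFT.NormUnits

open Fermat.Agent.Lib.CFT IntermediateField

variable {K L : Type} [Field K] [Field L] [Algebra K L] [FiniteDimensional K L] [IsGalois K L]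

/-- **`H²(Gal(L/K), Lˣ)` is finite of order dividing `[L : K]`, for every finite Galois extension
`L / K` of local fields.** -/
theorem IsLocalFld.card_H2_units_dvd (hK : IsLocalFld K) :
    Finite (groupCohomology (Rep.ofAlgebraAutOnUnits K L) 2) ∧
      Nat.card (groupCohomology (Rep.ofAlgebraAutOnUnits K L) 2) ∣ Module.finrank K L := by
  classical
  let _ : Fintype Gal(L/K) := Fintype.ofFinite _
  have hcard : Fintype.card Gal(L/K) = Module.finrank K L := by
    rw [← Nat.card_eq_fintype_card, IsGalois.card_aut_eq_finrank]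
  rw [← hcard]
  refine Coh.SylowCard.finite_and_card_dvd_of_sylow (Rep.ofAlgebraAutOnUnits K L) 2
    (fun p hp hpG => ?_)
  have hpF : Fact p.Prime := ⟨hp⟩
  obtain ⟨P⟩ : Nonempty (Sylow p Gal(L/K)) := inferInstance
  refine ⟨(P : Subgroup Gal(L/K)), ?_, ?_⟩
  · rw [P.card_eq_multiplicity, Nat.card_eq_fintype_card]
  · have hKE : IsLocalFld (fixedField (P : Subgroup Gal(L/K))) := hK.of_finite
    have hsolv : Group.IsSolvable Gal(L/fixedField (P : Subgroup Gal(L/K))) := by
      have hP : IsPGroup p Gal(L/fixedField (P : Subgroup Gal(L/K))) :=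
        P.isPGroup'.of_equiv (subgroupEquivAlgEquiv (P : Subgroup Gal(L/K)))
      have := hP.isNilpotent
      infer_instance
    obtain ⟨hfin, hdvd⟩ := hKE.card_H2_units_dvd_of_isSolvable (L := L)
    have e := (resIso (P : Subgroup Gal(L/K)) 2).toLinearEquiv.toEquiv
    refine ⟨Finite.of_equiv _ e.symm, ?_⟩
    rw [Nat.card_congr e, ← finrank_fixedField_eq_card]
    exact hdvd

end Fermat.Agent.Lib.CFT.NormUnits
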