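/-
P-CFT, WP Local/NormUnits (helper43): `ℚ_[p]` and its finite extensions are local fields in the sense
of `IsLocalFld`, so all theorems of this package apply to them.
-/
import Mathlib
import Fermat.Agent.Lib.CFT.Local.NormUnits.GeneralH2

set_option autoImplicit false

namespace Fermat.Agent.Lib.CFT.NormUnits

open IsLocalRing

/-- `ℚ_[p]` is a local field. -/
theorem isLocalFld_padic (p : ℕ) [Fact p.Prime] : IsLocalFld ℚ_[p] := by
  have : Finite (ResidueField ℤ_[p]) := Finite.of_equiv (ZMod p) PadicInt.residueField.symm.toEquiv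
  exact isLocalFld_of_isFractionRing ℤ_[p] ℚ_[p]

/-- Every finite extension of `ℚ_[p]` is a local field. -/
theorem isLocalFld_of_finite_padic (p : ℕ) [Fact p.Prime] (E : Type) [Field E] [Algebra ℚ_[p] E]
    [FiniteDimensional ℚ_[p] E] : IsLocalFld E :=
  (isLocalFld_padic p).of_finite

/-- For a finite Galois extension `L / E` of finite extensions of `ℚ_[p]`, the group
`H²(Gal(L/E), Lˣ)` is finite of order dividing `[L : E]`. -/
theorem card_H2_units_dvd_padic (p : ℕ) [Fact p.Prime] (E L : Type) [Field E] [Field L]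
    [Algebra ℚ_[p] E] [FiniteDimensional ℚ_[p] E] [Algebra E L] [FiniteDimensional E L]
    [IsGalois E L] :
    Finite (groupCohomology (Rep.ofAlgebraAutOnUnits E L) 2) ∧
      Nat.card (groupCohomology (Rep.ofAlgebraAutOnUnits E L) 2) ∣ Module.finrank E L :=
  (isLocalFld_of_finite_padic p E).card_H2_units_dvd

/-- For a finite cyclic extension `L / E` of finite extensions of `ℚ_[p]`:
`[Eˣ : N Lˣ] = [L : E]`. -/
theorem norm_index_of_isCyclic_padic (p : ℕ) [Fact p.Prime] (E L : Type) [Field E] [Field L]
    [Algebra ℚ_[p] E] [FiniteDimensional ℚ_[p] E] [Algebra E L] [FiniteDimensional E L]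
    [IsGalois E L] [IsCyclic Gal(L/E)] :
    (Herbrand.unitsNorm E L).range.index = Module.finrank E L :=
  (isLocalFld_of_finite_padic p E).norm_index_of_isCyclic

end Fermat.Agent.Lib.CFT.NormUnits
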