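/-
P-CFT, WP Local/NormUnits (helper43): the regular representation of a finite cyclic group.

`G` a finite group generated by `σ`, `A` a commutative ring.  `G` acts on functions `a : G → A` by
translation `(g · a) h = a (g⁻¹ * h)`.  Two elementary facts (vanishing of `Ĥ⁰` and `Ĥ⁻¹` of the
regular representation, with congruences modulo an element `π`):
* if `σ · a ≡ a` then `a` is constant modulo `π`;
* every `a` is `(∑ a) δ₁ + (σ · b - b)` for some `b`.
-/
import Mathlib

set_option autoImplicit false
set_option linter.unusedSectionVars false

namespace Fermat.Agent.Lib.CFT.NormUnits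

variable {G A : Type*} [Group G] [CommRing A]

/-- translation action of `G` on functions `G → A`. -/
def transl (g : G) (a : G → A) : G → A := fun h => a (g⁻¹ * h)

@[simp] theorem transl_apply (g : G) (a : G → A) (h : G) : transl g a h = a (g⁻¹ * h) := rfl

theorem transl_one (a : G → A) : transl (1 : G) a = a := by
  funext h; simp

theorem transl_mul (g g' : G) (a : G → A) : transl (g * g') a = transl g (transl g' a) := by
  funext h; simp [mul_assoc]

theorem transl_add (g : G) (a b : G → A) : transl g (a + b) = transl g a + transl g b := rfl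

theorem transl_sub (g : G) (a b : G → A) : transl g (a - b) = transl g a - transl g b := rfl

theorem transl_smul (g : G) (c : A) (a : G → A) : transl g (c • a) = c • transl g a := rfl

/-- **(C1)** if `σ` generates `G` and `a (σ⁻¹ h) ≡ a h` modulo `π` for all `h`, then `a` is constant
modulo `π`. -/
theorem dvd_sub_of_transl {σ : G} (hσ : ∀ g : G, g ∈ Subgroup.zpowers σ) (π : A) (a : G → A)
    (h : ∀ x, π ∣ transl σ a x - a x) : ∀ x, π ∣ a x - a 1 := by
  -- the set of `g` such that `a (g * x) ≡ a x` for all `x` is a subgroup containing `σ⁻¹`
  let S : Subgroup G :=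
    { carrier := {g | ∀ x, π ∣ a (g * x) - a x}
      one_mem' := by intro x; simp
      mul_mem' := by
        intro g g' hg hg' x
        have h1 := hg (g' * x)
        have h2 := hg' x
        have : a (g * g' * x) - a x = (a (g * (g' * x)) - a (g' * x)) + (a (g' * x) - a x) := by
          rw [mul_assoc]; ring
        rw [this]
        exact dvd_add h1 h2
      inv_mem' := by
        intro g hg x
        have h1 := hg (g⁻¹ * x)
        rw [mul_inv_cancel_left] at h1
        have : a (g⁻¹ * x) - a x = -(a x - a (g⁻¹ * x)) := by ring
        rw [this]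
        exact (dvd_neg).mpr h1 }
  have hσS : σ ∈ S := by
    have : σ⁻¹ ∈ S := fun x => h x
    simpa using S.inv_mem this
  intro x
  have hx : x ∈ S := (Subgroup.zpowers_le.mpr hσS) (hσ x)
  simpa using hx 1

variable [Fintype G] [DecidableEq G]

/-- the indicator function of `g`. -/
def delta (g : G) : G → A := Pi.single g 1

theorem transl_delta (g h : G) : transl g (delta h : G → A) = delta (g * h) := by
  funext x
  simp only [transl_apply, delta, Pi.single_apply]
  by_cases hx : x = g * h
  · subst hx; simp
  · rw [if_neg hx, if_neg]
    intro hh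
    apply hx
    rw [← hh]; simp

theorem eq_sum_smul_delta (a : G → A) : a = ∑ h, a h • (delta h : G → A) := by
  funext x
  simp [delta, Finset.sum_apply, Pi.single_apply]

/-- **(C2)** if `σ` generates `G`, every `a` is `(∑ a) δ₁` plus a `σ`-coboundary. -/
theorem exists_coboundary {σ : G} (hσ : ∀ g : G, g ∈ Subgroup.zpowers σ) (a : G → A) :
    ∃ b : G → A, a = (∑ h, a h) • (delta 1 : G → A) + (transl σ b - b) := by
  -- the submodule of coboundaries
  let I : Submodule A (G → A) :=
    { carrier := {c | ∃ b : G → A, c = transl σ b - b}
      zero_mem' := ⟨0, by funext x; simp⟩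
      add_mem' := by
        rintro _ _ ⟨b, rfl⟩ ⟨b', rfl⟩
        exact ⟨b + b', by rw [transl_add]; abel⟩
      smul_mem' := by
        rintro c _ ⟨b, rfl⟩
        exact ⟨c • b, by rw [transl_smul, smul_sub]⟩ }
  -- `δ_g - δ_1 ∈ I` for all `g`
  let S : Subgroup G :=
    { carrier := {g | ∀ x : G, (delta (g * x) : G → A) - delta x ∈ I}
      one_mem' := by intro x; simp
      mul_mem' := by
        intro g g' hg hg' x
        have h1 := hg (g' * x)
        have h2 := hg' x
        have : (delta (g * g' * x) : G → A) - delta x
            = (delta (g * (g' * x)) - delta (g' * x)) + (delta (g' * x) - delta x) := by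
          rw [mul_assoc]; abel
        rw [this]
        exact I.add_mem h1 h2
      inv_mem' := by
        intro g hg x
        have h1 := hg (g⁻¹ * x)
        rw [mul_inv_cancel_left] at h1
        have : (delta (g⁻¹ * x) : G → A) - delta x = -(delta x - delta (g⁻¹ * x)) := by abel
        rw [this]
        exact I.neg_mem h1 }
  have hσS : σ ∈ S := fun x => ⟨delta x, by rw [transl_delta]⟩
  have hall : ∀ g : G, (delta g : G → A) - delta 1 ∈ I := fun g => by
    have := (Subgroup.zpowers_le.mpr hσS) (hσ g) 1
    simpa using this
  have hmem : a - (∑ h, a h) • (delta 1 : G → A) ∈ I := by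
    have : a - (∑ h, a h) • (delta 1 : G → A) = ∑ h, a h • ((delta h : G → A) - delta 1) := by
      conv_lhs => rw [eq_sum_smul_delta a]
      simp only [smul_sub, Finset.sum_sub_distrib, Finset.sum_smul]
      congr 1
      funext x
      simp [delta, Finset.sum_apply, Pi.single_apply]
    rw [this]
    exact I.sum_mem fun h _ => I.smul_mem _ (hall h)
  obtain ⟨b, hb⟩ := hmem
  exact ⟨b, by rw [← hb]; abel⟩

end Fermat.Agent.Lib.CFT.NormUnits
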