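/-
P-CFT, WP Local/NormUnits (helper43): normal basis lattices.

`B` a local domain with an action of a finite group `G`, `A → B` a `G`-invariant coefficient ring,
`π : A`.  `NormalBasisData` packages an element `θ : B` whose conjugates `g • θ` are `A`-linearly
independent and span a lattice `M = ∑ A (g • θ)` with `π ^ N B ⊆ M`.  If `A` is `π`-adically complete
this lattice satisfies `LocalUnits.LatticeData` (helper84, `Local/PrincipalUnits.lean`) and its
reduction modulo `π` is an induced module: hypotheses `hT` (all `G`) and `hT1` (cyclic `G`) of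
`LocalUnits.LatticeData.exists_unitsNorm_eq` / `exists_unitsTwist_eq` hold.
-/
import Fermat.Agent.Lib.CFT.Local.NormUnits.Cyclic
import Fermat.Agent.Lib.CFT.Local.PrincipalUnits

set_option autoImplicit false
set_option linter.unusedSectionVars false

namespace Fermat.Agent.Lib.CFT.NormUnits

open Fermat.Agent.Lib.CFT

variable (A B G : Type*) [CommRing A] [CommRing B] [IsDomain B] [Algebra A B]
  [Group G] [Fintype G] [MulSemiringAction G B] [SMulCommClass G A B]

/-- A normal basis lattice in `B` relative to `π : A`. -/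
structure NormalBasisData (π : A) where
  θ : B
  N : ℕ
  indep : LinearIndependent A (fun g : G => g • θ)
  index : ∀ b : B, ∃ a : G → A, algebraMap A B π ^ N * b = ∑ g, a g • (g • θ)
  π_ne : algebraMap A B π ≠ 0

variable {A B G}

namespace NormalBasisData

variable {π : A} (D : NormalBasisData A B G π)

/-- the image of `π` in `B`. -/
abbrev ϖ (_D : NormalBasisData A B G π) : B := algebraMap A B π

/-- the coordinate map `a ↦ ∑ a g • (g • θ)`. -/
noncomputable def μ : (G → A) →ₗ[A] B := Fintype.linearCombination A (fun g : G => g • D.θ)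

theorem μ_apply (a : G → A) : D.μ a = ∑ g, a g • (g • D.θ) := by
  unfold μ
  rw [Fintype.linearCombination_apply]

theorem μ_injective : Function.Injective D.μ := by
  have hli := Fintype.linearIndependent_iff.mp D.indep
  intro a a' h
  have h0 : D.μ (a - a') = 0 := by rw [map_sub, h, sub_self]
  rw [μ_apply] at h0
  have := hli (a - a') h0
  funext g
  have hg := this g
  rw [Pi.sub_apply] at hg
  exact sub_eq_zero.mp hg

theorem exists_μ (b : B) : ∃ a : G → A, D.ϖ ^ D.N * b = D.μ a := by
  obtain ⟨a, ha⟩ := D.index b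
  exact ⟨a, by rw [μ_apply]; exact ha⟩

theorem ϖ_pow_ne (k : ℕ) : D.ϖ ^ k ≠ 0 := pow_ne_zero k D.π_ne

theorem ϖ_mul_μ (c : A) (a : G → A) : algebraMap A B c * D.μ a = D.μ (c • a) := by
  rw [map_smul, Algebra.smul_def]

theorem ϖ_pow_mul_μ (k : ℕ) (a : G → A) : D.ϖ ^ k * D.μ a = D.μ (π ^ k • a) := by
  rw [← ϖ_mul_μ, map_pow]

theorem smul_ϖ (g : G) : g • D.ϖ = D.ϖ := smul_algebraMap g π

theorem smul_μ (g : G) (a : G → A) : g • D.μ a = D.μ (transl g a) := by
  rw [μ_apply, μ_apply, Finset.smul_sum]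
  have : ∀ h : G, g • (a h • (h • D.θ)) = a h • ((g * h) • D.θ) := by
    intro h
    rw [smul_comm g (a h) (h • D.θ), mul_smul]
  simp only [this]
  refine Fintype.sum_equiv (Equiv.mulLeft g) _ _ fun h => ?_
  simp [transl]

theorem μ_delta [DecidableEq G] (g : G) : D.μ (delta g) = g • D.θ := by
  rw [μ_apply]
  simp [delta, Pi.single_apply]

/-- the lattice `M = ∑ A (g • θ)` as an additive subgroup. -/
noncomputable def M : AddSubgroup B := (LinearMap.range D.μ).toAddSubgroup

theorem mem_M {x : B} : x ∈ D.M ↔ ∃ a : G → A, D.μ a = x := Iff.rfl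

theorem μ_mem (a : G → A) : D.μ a ∈ D.M := ⟨a, rfl⟩

/-- translation by all of `G` of a function sums to the constant function `∑ a`. -/
theorem sum_transl (a : G → A) : ∑ g : G, transl g a = fun _ => ∑ h, a h := by
  funext x
  rw [Finset.sum_apply]
  simp only [transl_apply]
  refine Fintype.sum_equiv ((Equiv.inv G).trans (Equiv.mulRight x)) _ _ fun g => ?_
  simp

theorem sum_smul_μ (a : G → A) : ∑ g : G, g • D.μ a = D.μ (fun _ => ∑ h, a h) := by
  simp only [smul_μ]
  rw [← map_sum, sum_transl]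

/-- coefficientwise divisibility. -/
theorem dvd_of_μ_eq {k : ℕ} {a a' : G → A} (h : D.μ a = D.ϖ ^ k * D.μ a') (g : G) :
    π ^ k ∣ a g := by
  rw [ϖ_pow_mul_μ] at h
  have := D.μ_injective h
  rw [this]
  exact ⟨a' g, rfl⟩

section Complete

variable [IsLocalRing B] (hπ : algebraMap A B π ∈ IsLocalRing.maximalIdeal B)
  [hA : IsAdicComplete (Ideal.span {π}) A]

include hA in
/-- separatedness of `A` in the form we need. -/
theorem eq_zero_of_forall_dvd {x : A} (h : ∀ n : ℕ, π ^ n ∣ x) : x = 0 := by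
  apply IsHausdorff.haus' (I := Ideal.span {π}) x
  intro n
  rw [SModEq.zero, smul_eq_mul, Ideal.mul_top, Ideal.span_singleton_pow,
    Ideal.mem_span_singleton]
  exact h n

include hA in
/-- completeness of `A` in the form we need. -/
theorem exists_limit (s : ℕ → A) (hs : ∀ n, π ^ n ∣ s (n + 1) - s n) :
    ∃ L : A, ∀ n, π ^ n ∣ L - s n := by
  have hmn : ∀ {m n : ℕ}, m ≤ n → π ^ m ∣ s n - s m := by
    intro m n hmn
    induction hmn with
    | refl => simp
    | step hk ih =>
      rename_i k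
      have h1 : π ^ m ∣ s (k + 1) - s k := dvd_trans (pow_dvd_pow π hk) (hs k)
      have : s (k + 1) - s m = (s (k + 1) - s k) + (s k - s m) := by ring
      rw [this]
      exact dvd_add h1 ih
  obtain ⟨L, hL⟩ := IsPrecomplete.prec' (I := Ideal.span {π}) (f := s) (by
    intro m n hmn'
    rw [SModEq.sub_mem, smul_eq_mul, Ideal.mul_top, Ideal.span_singleton_pow,
      Ideal.mem_span_singleton]
    have := hmn hmn'
    have e : s m - s n = -(s n - s m) := by ring
    rw [e]
    exact (dvd_neg).mpr this)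
  refine ⟨L, fun n => ?_⟩
  have := hL n
  rw [SModEq.sub_mem, smul_eq_mul, Ideal.mul_top, Ideal.span_singleton_pow,
    Ideal.mem_span_singleton] at this
  have e : L - s n = -(s n - L) := by ring
  rw [e]
  exact (dvd_neg).mpr this

include hπ hA in
/-- **The normal basis lattice satisfies helper84's `LatticeData`.** -/
theorem latticeData : LocalUnits.LatticeData G D.ϖ D.M D.N where
  pi_mem := hπ
  pi_fixed := D.smul_ϖ
  pi_reg := by
    intro b hb
    rcases mul_eq_zero.mp hb with h | h
    · exact absurd h D.π_ne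
    · exact h
  sep := by
    intro b hb
    obtain ⟨a, ha⟩ := D.exists_μ b
    have hall : ∀ g, a g = 0 := by
      intro g
      apply eq_zero_of_forall_dvd (π := π)
      intro n
      obtain ⟨b', hb'⟩ := hb n
      obtain ⟨a', ha'⟩ := D.exists_μ b'
      apply D.dvd_of_μ_eq (a' := a')
      rw [← ha, ← ha', hb']
      ring
    have : D.ϖ ^ D.N * b = 0 := by
      rw [ha]
      have : a = 0 := funext hall
      rw [this, map_zero]
    rcases mul_eq_zero.mp this with h | h
    · exact absurd h (D.ϖ_pow_ne _)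
    · exact h
  smul_mem := by
    rintro g _ ⟨a, rfl⟩
    exact ⟨transl g a, (D.smul_μ g a).symm⟩
  pi_mul_mem := by
    rintro _ ⟨a, rfl⟩
    exact ⟨π • a, by rw [map_smul, Algebra.smul_def]⟩
  pow_mul_mem := by
    intro b
    obtain ⟨a, ha⟩ := D.exists_μ b
    exact ⟨a, ha.symm⟩
  complete := by
    intro m hm
    choose a ha using hm
    -- partial sums of the coefficient functions
    let s : ℕ → G → A := fun n => ∑ j ∈ Finset.range n, π ^ j • a j
    have hs : ∀ g n, π ^ n ∣ s (n + 1) g - s n g := by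
      intro g n
      simp only [s, Finset.sum_range_succ, Finset.sum_apply, Pi.smul_apply, smul_eq_mul]
      rw [add_sub_cancel_left]
      exact dvd_mul_right _ _
    choose L hL using fun g => exists_limit (π := π) (fun n => s n g) (hs g)
    refine ⟨D.μ L, D.μ_mem L, fun n => ?_⟩
    choose r hr using fun g => hL g n
    refine ⟨D.μ r, D.μ_mem r, ?_⟩
    have h1 : ∑ j ∈ Finset.range n, D.ϖ ^ j * m j = D.μ (s n) := by
      simp only [s]
      rw [map_sum]
      refine Finset.sum_congr rfl fun j _ => ?_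
      rw [← ha j, ϖ_pow_mul_μ]
    rw [h1, ← map_sub, ϖ_pow_mul_μ]
    congr 1
    funext g
    rw [Pi.sub_apply, hr g]
    rfl

/-- `hT`: invariants of the lattice are traces (no congruence needed). -/
theorem hT [DecidableEq G] : ∀ m ∈ D.M, (∀ g : G, g • m = m) →
    ∃ m' ∈ D.M, ∃ r ∈ D.M, m - ∑ g : G, g • m' = D.ϖ * r := by
  rintro _ ⟨a, rfl⟩ hfix
  have hconst : ∀ g, a g = a 1 := by
    intro g
    have h1 := hfix g
    rw [smul_μ] at h1
    have h2 := congrFun (D.μ_injective h1) g
    simp only [transl_apply, inv_mul_cancel] at h2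
    exact h2.symm
  refine ⟨D.μ (a 1 • delta 1), D.μ_mem _, 0, D.M.zero_mem, ?_⟩
  rw [mul_zero, sub_eq_zero, sum_smul_μ]
  congr 1
  funext g
  rw [hconst g]
  simp [delta, Pi.single_apply]

/-- `hT1`: trace-zero elements modulo `π` are `σ`-coboundaries modulo `π` (cyclic `G`). -/
theorem hT1 [DecidableEq G] {σ : G} (hσ : ∀ g : G, g ∈ Subgroup.zpowers σ) :
    ∀ m ∈ D.M, (∃ r ∈ D.M, ∑ g : G, g • m = D.ϖ * r) →
    ∃ m' ∈ D.M, ∃ r' ∈ D.M, m - (σ • m' - m') = D.ϖ * r' := by
  rintro _ ⟨a, rfl⟩ ⟨_, ⟨ar, rfl⟩, hr⟩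
  rw [sum_smul_μ] at hr
  have hdvd : π ∣ ∑ h, a h := by
    have := D.dvd_of_μ_eq (k := 1) (a' := ar) (by rw [pow_one]; exact hr) 1
    simpa using this
  obtain ⟨c, hc⟩ := hdvd
  obtain ⟨b, hb⟩ := exists_coboundary hσ a
  refine ⟨D.μ b, D.μ_mem b, D.μ (c • delta 1), D.μ_mem _, ?_⟩
  rw [smul_μ, ← map_sub, ← map_sub, ϖ_mul_μ, smul_smul, ← hc]
  congr 1
  conv_lhs => rw [hb]
  abel

end Complete

end NormalBasisData

end Fermat.Agent.Lib.CFT.NormUnits
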